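import Mathlib

/-!
# Row LT, tower T2, leaf T2.10.08.10 `GenSecondC` (L4b) — core, Mathlib only (helper708)

Blaschke--Privalov in dimension one: a continuous function `H : ℝ → ℂ` whose generalised second
derivative (mean value form)

  `lim_{d → 0+} ((2 d)⁻¹ ∫_{-d}^{d} H (s + t) dt - H s) / d ^ 2 = φ s / 6`

exists at every point and is a continuous function `φ` of `s`, is twice differentiable with
`H'' = φ`.

* `gsR`                : the real difference quotient;
* `gsR_quad708`        : the quotient of a quadratic polynomial `A + B x + C x ^ 2` is `C / 3`;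
* `le_chord708`        : maximum principle: generalised second derivative `0` ⟹ below the chord;
* `affine708`          : generalised second derivative `0` ⟹ affine;
* `primitive708`       : a double primitive of `ψ` has generalised second derivative `ψ`;
* `genSecond_real708`  : the real statement;
* `genSecond_core708`  : the complex statement, in the exact shape of `H973.GenSecondC`.
-/

set_option autoImplicit false

open MeasureTheory Filter Topology

noncomputable section

namespace Fermat.Agent.LT.T2.H708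

/-- The real difference quotient of the generalised second derivative. -/
def gsR (q : ℝ → ℝ) (s d : ℝ) : ℝ :=
  ((2 * d)⁻¹ * (∫ t in (-d)..d, q (s + t)) - q s) / d ^ 2

theorem shift_cont708 {E : Type*} [TopologicalSpace E] (q : ℝ → E) (hq : Continuous q) (s : ℝ) :
    Continuous (fun t : ℝ => q (s + t)) :=
  hq.comp (continuous_const.add continuous_id)

theorem gsR_add708 (q c : ℝ → ℝ) (hq : Continuous q) (hc : Continuous c) (s d : ℝ) :
    gsR (fun x => q x + c x) s d = gsR q s d + gsR c s d := by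
  unfold gsR
  rw [intervalIntegral.integral_add ((shift_cont708 q hq s).intervalIntegrable _ _)
    ((shift_cont708 c hc s).intervalIntegrable _ _)]
  ring

theorem gsR_neg708 (q : ℝ → ℝ) (s d : ℝ) : gsR (fun x => - q x) s d = - gsR q s d := by
  unfold gsR
  rw [intervalIntegral.integral_neg]
  ring

/-- The integral of a quadratic polynomial over a symmetric interval. -/
theorem integral_quad708 (A B C s d : ℝ) :
    ∫ t in (-d)..d, (A + B * (s + t) + C * (s + t) ^ 2)
      = 2 * d * (A + B * s + C * s ^ 2) + C * (2 * d ^ 3 / 3) := by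
  have hder : ∀ t ∈ Set.uIcc (-d) d,
      HasDerivAt (fun t : ℝ => (A + B * s + C * s ^ 2) * t + (B + 2 * C * s) * (t ^ 2 / 2)
          + C * (t ^ 3 / 3))
        (A + B * (s + t) + C * (s + t) ^ 2) t := by
    intro t _
    have h1 : HasDerivAt (fun t : ℝ => (A + B * s + C * s ^ 2) * t) (A + B * s + C * s ^ 2) t := by
      simpa using (hasDerivAt_id t).const_mul (A + B * s + C * s ^ 2)
    have h2 : HasDerivAt (fun t : ℝ => (B + 2 * C * s) * (t ^ 2 / 2)) ((B + 2 * C * s) * t) t := by
      have := ((hasDerivAt_pow 2 t).div_const 2).const_mul (B + 2 * C * s)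
      refine this.congr_deriv ?_
      norm_num
    have h3 : HasDerivAt (fun t : ℝ => C * (t ^ 3 / 3)) (C * t ^ 2) t := by
      have := ((hasDerivAt_pow 3 t).div_const 3).const_mul C
      refine this.congr_deriv ?_
      norm_num
    refine ((h1.add h2).add h3).congr_deriv ?_
    ring
  rw [intervalIntegral.integral_eq_sub_of_hasDerivAt hder]
  · ring
  · exact (by fun_prop : Continuous fun t : ℝ => A + B * (s + t) + C * (s + t) ^ 2).intervalIntegrable
      _ _

theorem integral_quad0_708 (A B C d : ℝ) :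
    ∫ t in (-d)..d, (A + B * t + C * t ^ 2) = 2 * d * A + C * (2 * d ^ 3 / 3) := by
  have := integral_quad708 A B C 0 d
  simpa using this

theorem gsR_quad708 (A B C s d : ℝ) (hd : d ≠ 0) :
    gsR (fun x => A + B * x + C * x ^ 2) s d = C / 3 := by
  unfold gsR
  rw [integral_quad708]
  field_simp
  ring

/-- **Maximum principle.**  A continuous real function whose generalised second derivative
vanishes identically lies below its chords. -/
theorem le_chord708 (q : ℝ → ℝ) (hq : Continuous q)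
    (h0 : ∀ s, Tendsto (gsR q s) (𝓝[>] 0) (𝓝 0)) (a b : ℝ) (hab : a < b) :
    ∀ x ∈ Set.Icc a b, q x ≤ q a + (q b - q a) / (b - a) * (x - a) := by
  have hba : 0 < b - a := sub_pos.2 hab
  set m : ℝ := (q b - q a) / (b - a) with hm
  have key : ∀ ε > 0, ∀ x ∈ Set.Icc a b,
      q x + ((-(q a) + m * a + ε * (a * b)) + (-m - ε * (a + b)) * x + ε * x ^ 2) ≤ 0 := by
    intro ε hε
    set c : ℝ → ℝ :=
      fun x => (-(q a) + m * a + ε * (a * b)) + (-m - ε * (a + b)) * x + ε * x ^ 2 with hc
    have hcc : Continuous c := by rw [hc]; fun_prop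
    set g : ℝ → ℝ := fun x => q x + c x with hg
    have hgc : Continuous g := hq.add hcc
    obtain ⟨x₀, hx₀, hmax⟩ :=
      isCompact_Icc.exists_isMaxOn (Set.nonempty_Icc.2 hab.le) hgc.continuousOn
    have hga : g a = 0 := by
      simp only [hg, hc]
      ring
    have hgb : g b = 0 := by
      have e : m * (b - a) = q b - q a := by
        rw [hm]
        field_simp
      simp only [hg, hc]
      linear_combination -e
    by_contra hcon
    push Not at hcon
    obtain ⟨x₁, hx₁, hpos⟩ := hcon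
    have hg0 : 0 < g x₀ := lt_of_lt_of_le hpos (hmax hx₁)
    have hxa : x₀ ≠ a := by
      rintro rfl
      rw [hga] at hg0
      exact lt_irrefl _ hg0
    have hxb : x₀ ≠ b := by
      rintro rfl
      rw [hgb] at hg0
      exact lt_irrefl _ hg0
    have hax : a < x₀ := lt_of_le_of_ne hx₀.1 (Ne.symm hxa)
    have hxb' : x₀ < b := lt_of_le_of_ne hx₀.2 hxb
    have hlim : Tendsto (gsR g x₀) (𝓝[>] 0) (𝓝 (ε / 3)) := by
      have h1 : ∀ᶠ d in 𝓝[>] (0 : ℝ), gsR q x₀ d + ε / 3 = gsR g x₀ d := by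
        filter_upwards [self_mem_nhdsWithin] with d hd
        have hd0 : d ≠ 0 := ne_of_gt hd
        rw [hg, gsR_add708 q c hq hcc, hc, gsR_quad708 _ _ _ _ _ hd0]
      have h2 : Tendsto (fun d => gsR q x₀ d + ε / 3) (𝓝[>] 0) (𝓝 (0 + ε / 3)) :=
        (h0 x₀).add tendsto_const_nhds
      rw [zero_add] at h2
      exact h2.congr' h1
    have hle : ∀ᶠ d in 𝓝[>] (0 : ℝ), gsR g x₀ d ≤ 0 := by
      have hmem : Set.Ioo 0 (min (x₀ - a) (b - x₀)) ∈ 𝓝[>] (0 : ℝ) :=
        Ioo_mem_nhdsGT (lt_min (sub_pos.2 hax) (sub_pos.2 hxb'))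
      filter_upwards [hmem] with d hd
      have hd0 : 0 < d := hd.1
      have hd1 : d < x₀ - a := lt_of_lt_of_le hd.2 (min_le_left _ _)
      have hd2 : d < b - x₀ := lt_of_lt_of_le hd.2 (min_le_right _ _)
      have hint : ∫ t in (-d)..d, g (x₀ + t) ≤ ∫ _t in (-d)..d, g x₀ := by
        apply intervalIntegral.integral_mono_on (by linarith)
        · exact (shift_cont708 g hgc x₀).intervalIntegrable _ _
        · exact (continuous_const).intervalIntegrable _ _
        · intro t ht
          exact hmax ⟨by linarith [ht.1], by linarith [ht.2]⟩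
      rw [intervalIntegral.integral_const] at hint
      unfold gsR
      apply div_nonpos_of_nonpos_of_nonneg _ (sq_nonneg d)
      have h3 : (2 * d)⁻¹ * ∫ t in (-d)..d, g (x₀ + t) ≤ (2 * d)⁻¹ * ((d - -d) • g x₀) :=
        mul_le_mul_of_nonneg_left hint (by positivity)
      have e : (2 * d)⁻¹ * ((d - -d) • g x₀) = g x₀ := by
        rw [smul_eq_mul]
        field_simp
        ring
      linarith
    have hfin := le_of_tendsto hlim hle
    linarith
  intro x hx
  by_contra hcon
  push Not at hcon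
  set η : ℝ := q x - (q a + m * (x - a)) with hη
  have hηpos : 0 < η := by
    rw [hη]
    linarith
  have hε : 0 < η / ((b - a) ^ 2 + 1) := by positivity
  have hk := key (η / ((b - a) ^ 2 + 1)) hε x hx
  have e : q x + ((-(q a) + m * a + η / ((b - a) ^ 2 + 1) * (a * b))
      + (-m - η / ((b - a) ^ 2 + 1) * (a + b)) * x + η / ((b - a) ^ 2 + 1) * x ^ 2)
      = η - η / ((b - a) ^ 2 + 1) * ((x - a) * (b - x)) := by
    rw [hη]
    ring
  rw [e] at hk
  have h1 : (x - a) * (b - x) ≤ (b - a) ^ 2 := by nlinarith [hx.1, hx.2]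
  have h2 : η / ((b - a) ^ 2 + 1) * ((x - a) * (b - x))
      ≤ η / ((b - a) ^ 2 + 1) * (b - a) ^ 2 :=
    mul_le_mul_of_nonneg_left h1 hε.le
  have h3 : η / ((b - a) ^ 2 + 1) * (b - a) ^ 2 < η := by
    rw [div_mul_eq_mul_div, div_lt_iff₀ (by positivity)]
    nlinarith
  linarith

theorem eq_chord708 (q : ℝ → ℝ) (hq : Continuous q)
    (h0 : ∀ s, Tendsto (gsR q s) (𝓝[>] 0) (𝓝 0)) (a b : ℝ) (hab : a < b) :
    ∀ x ∈ Set.Icc a b, q x = q a + (q b - q a) / (b - a) * (x - a) := by
  intro x hx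
  apply le_antisymm (le_chord708 q hq h0 a b hab x hx)
  have h0' : ∀ s, Tendsto (gsR (fun y => - q y) s) (𝓝[>] 0) (𝓝 0) := by
    intro s
    have := (h0 s).neg
    rw [neg_zero] at this
    exact this.congr' (Eventually.of_forall fun d => (gsR_neg708 q s d).symm)
  have hneg := le_chord708 (fun y => - q y) hq.neg h0' a b hab x hx
  have e : (- q b - - q a) / (b - a) = - ((q b - q a) / (b - a)) := by ring
  rw [e] at hneg
  linarith

/-- A continuous real function whose generalised second derivative vanishes identically is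
affine. -/
theorem affine708 (q : ℝ → ℝ) (hq : Continuous q)
    (h0 : ∀ s, Tendsto (gsR q s) (𝓝[>] 0) (𝓝 0)) :
    ∀ x, q x = q 0 + (q 1 - q 0) * x := by
  intro x
  have hab : min x 0 - 1 < max x 1 + 1 := by
    have h1 : min x 0 ≤ 0 := min_le_right _ _
    have h2 : (1 : ℝ) ≤ max x 1 := le_max_right _ _
    linarith
  have hx : x ∈ Set.Icc (min x 0 - 1) (max x 1 + 1) :=
    ⟨by linarith [min_le_left x 0], by linarith [le_max_left x 1]⟩
  have hz : (0 : ℝ) ∈ Set.Icc (min x 0 - 1) (max x 1 + 1) :=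
    ⟨by linarith [min_le_right x 0], by linarith [le_max_right x 1]⟩
  have ho : (1 : ℝ) ∈ Set.Icc (min x 0 - 1) (max x 1 + 1) :=
    ⟨by linarith [min_le_right x 0], by linarith [le_max_right x 1]⟩
  have ex := eq_chord708 q hq h0 _ _ hab x hx
  have e0 := eq_chord708 q hq h0 _ _ hab 0 hz
  have e1 := eq_chord708 q hq h0 _ _ hab 1 ho
  rw [ex, e0, e1]
  ring

/-- A double primitive of a continuous function `ψ` has generalised second derivative `ψ`. -/
theorem primitive708 (ψ : ℝ → ℝ) (hψ : Continuous ψ) :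
    ∃ P P1 : ℝ → ℝ, Continuous P ∧ (∀ s, HasDerivAt P (P1 s) s) ∧
      (∀ s, HasDerivAt P1 (ψ s) s) ∧ ∀ s, Tendsto (gsR P s) (𝓝[>] 0) (𝓝 (ψ s / 6)) := by
  set P1 : ℝ → ℝ := fun u => ∫ x in (0 : ℝ)..u, ψ x with hP1
  have hP1d : ∀ s, HasDerivAt P1 (ψ s) s := fun s =>
    (hψ.integral_hasStrictDerivAt 0 s).hasDerivAt
  have hP1c : Continuous P1 := continuous_iff_continuousAt.2 fun s => (hP1d s).continuousAt
  set P : ℝ → ℝ := fun s => ∫ u in (0 : ℝ)..s, P1 u with hP
  have hPd : ∀ s, HasDerivAt P (P1 s) s := fun s =>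
    (hP1c.integral_hasStrictDerivAt 0 s).hasDerivAt
  have hPc : Continuous P := continuous_iff_continuousAt.2 fun s => (hPd s).continuousAt
  refine ⟨P, P1, hPc, hPd, hP1d, fun s => ?_⟩
  rw [Metric.tendsto_nhdsWithin_nhds]
  intro ε hε
  obtain ⟨δ, hδ, hδψ⟩ := Metric.continuous_iff.1 hψ s (ε / 2) (by positivity)
  refine ⟨δ, hδ, fun d hd hdδ => ?_⟩
  have hd0 : 0 < d := hd
  have hdδ' : d < δ := by
    rw [Real.dist_eq, sub_zero, abs_of_pos hd0] at hdδ
    exact hdδ
  set G1 : ℝ → ℝ := fun t => P1 (s + t) - (P1 s + ψ s * t) with hG1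
  set G : ℝ → ℝ := fun t => P (s + t) - (P s + P1 s * t + ψ s / 2 * t ^ 2) with hG
  have hG1d : ∀ t, HasDerivAt G1 (ψ (s + t) - ψ s) t := by
    intro t
    have h1 : HasDerivAt (fun t => P1 (s + t)) (ψ (s + t)) t :=
      HasDerivAt.comp_const_add s t (hP1d (s + t))
    have h2 : HasDerivAt (fun t : ℝ => P1 s + ψ s * t) (ψ s) t := by
      simpa using ((hasDerivAt_id t).const_mul (ψ s)).const_add (P1 s)
    exact h1.sub h2
  have hGd : ∀ t, HasDerivAt G (G1 t) t := by
    intro t
    have h1 : HasDerivAt (fun t => P (s + t)) (P1 (s + t)) t :=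
      HasDerivAt.comp_const_add s t (hPd (s + t))
    have h2 : HasDerivAt (fun t : ℝ => P s + P1 s * t + ψ s / 2 * t ^ 2) (P1 s + ψ s * t) t := by
      have h3 : HasDerivAt (fun t : ℝ => P s + P1 s * t) (P1 s) t := by
        simpa using ((hasDerivAt_id t).const_mul (P1 s)).const_add (P s)
      have h4 : HasDerivAt (fun t : ℝ => ψ s / 2 * t ^ 2) (ψ s * t) t := by
        have := (hasDerivAt_pow 2 t).const_mul (ψ s / 2)
        refine this.congr_deriv ?_
        norm_num
        ring
      exact h3.add h4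
    exact h1.sub h2
  have hbψ : ∀ x ∈ Set.Icc (-d) d, ‖ψ (s + x) - ψ s‖ ≤ ε / 2 := by
    intro x hx
    have hdist : dist (s + x) s < δ := by
      rw [Real.dist_eq]
      have : s + x - s = x := by ring
      rw [this]
      exact lt_of_le_of_lt (abs_le.2 ⟨hx.1, hx.2⟩) hdδ'
    have := hδψ (s + x) hdist
    rw [Real.dist_eq] at this
    exact le_of_lt this
  have hzero : (0 : ℝ) ∈ Set.Icc (-d) d := ⟨by linarith, hd0.le⟩
  have hG10 : G1 0 = 0 := by
    simp only [hG1]
    simp
  have hG0 : G 0 = 0 := by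
    simp only [hG]
    simp
  have hG1b : ∀ t ∈ Set.Icc (-d) d, ‖G1 t‖ ≤ ε / 2 * d := by
    intro t ht
    have h := Convex.norm_image_sub_le_of_norm_hasDerivWithin_le (f := G1)
      (f' := fun t => ψ (s + t) - ψ s) (s := Set.Icc (-d) d) (x := 0) (y := t) (C := ε / 2)
      (fun x _ => (hG1d x).hasDerivWithinAt) hbψ (convex_Icc _ _) hzero ht
    rw [hG10, sub_zero, sub_zero] at h
    have ht' : ‖t‖ ≤ d := by
      rw [Real.norm_eq_abs]
      exact abs_le.2 ⟨ht.1, ht.2⟩
    calc ‖G1 t‖ ≤ ε / 2 * ‖t‖ := h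
      _ ≤ ε / 2 * d := mul_le_mul_of_nonneg_left ht' (by positivity)
  have hGb : ∀ t ∈ Set.Icc (-d) d, ‖G t‖ ≤ ε / 2 * d * d := by
    intro t ht
    have h := Convex.norm_image_sub_le_of_norm_hasDerivWithin_le (f := G)
      (f' := G1) (s := Set.Icc (-d) d) (x := 0) (y := t) (C := ε / 2 * d)
      (fun x _ => (hGd x).hasDerivWithinAt) hG1b (convex_Icc _ _) hzero ht
    rw [hG0, sub_zero, sub_zero] at h
    have ht' : ‖t‖ ≤ d := by
      rw [Real.norm_eq_abs]
      exact abs_le.2 ⟨ht.1, ht.2⟩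
    calc ‖G t‖ ≤ ε / 2 * d * ‖t‖ := h
      _ ≤ ε / 2 * d * d := mul_le_mul_of_nonneg_left ht' (by positivity)
  have hGint : ‖∫ t in (-d)..d, G t‖ ≤ ε / 2 * d * d * |d - -d| := by
    apply intervalIntegral.norm_integral_le_of_norm_le_const
    intro t ht
    rw [Set.uIoc_of_le (by linarith : -d ≤ d)] at ht
    exact hGb t ⟨ht.1.le, ht.2⟩
  have habs : |d - -d| = 2 * d := by
    rw [abs_of_pos (by linarith)]
    ring
  rw [habs] at hGint
  have hGc : Continuous G := continuous_iff_continuousAt.2 fun t => (hGd t).continuousAt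
  have hsplit : ∫ t in (-d)..d, G t
      = (∫ t in (-d)..d, P (s + t)) - (2 * d * P s + ψ s / 2 * (2 * d ^ 3 / 3)) := by
    simp only [hG]
    rw [intervalIntegral.integral_sub ((shift_cont708 P hPc s).intervalIntegrable _ _)
      ((by fun_prop : Continuous fun t : ℝ => P s + P1 s * t + ψ s / 2 * t ^ 2).intervalIntegrable
        _ _), integral_quad0_708]
  have hrel : gsR P s d - ψ s / 6 = (2 * d)⁻¹ * (∫ t in (-d)..d, G t) / d ^ 2 := by
    rw [hsplit]
    unfold gsR
    field_simp
    ring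
  rw [Real.dist_eq, hrel, abs_div, abs_mul, abs_of_pos (by positivity : (0 : ℝ) < d ^ 2),
    abs_of_pos (by positivity : (0 : ℝ) < (2 * d)⁻¹), div_lt_iff₀ (by positivity)]
  rw [Real.norm_eq_abs] at hGint
  calc (2 * d)⁻¹ * |∫ t in (-d)..d, G t| ≤ (2 * d)⁻¹ * (ε / 2 * d * d * (2 * d)) :=
        mul_le_mul_of_nonneg_left hGint (by positivity)
    _ = ε / 2 * d ^ 2 := by
        field_simp
    _ < ε * d ^ 2 := by
        have : (0 : ℝ) < d ^ 2 := by positivity
        nlinarith

/-- **Blaschke--Privalov in dimension one, real form.** -/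
theorem genSecond_real708 (h ψ : ℝ → ℝ) (hh : Continuous h) (hψ : Continuous ψ)
    (hgs : ∀ s, Tendsto (gsR h s) (𝓝[>] 0) (𝓝 (ψ s / 6))) :
    ∃ h' : ℝ → ℝ, (∀ s, HasDerivAt h (h' s) s) ∧ ∀ s, HasDerivAt h' (ψ s) s := by
  obtain ⟨P, P1, hPc, hPd, hP1d, hPgs⟩ := primitive708 ψ hψ
  set q : ℝ → ℝ := fun x => h x + (- P x) with hq
  have hqc : Continuous q := hh.add hPc.neg
  have hq0 : ∀ s, Tendsto (gsR q s) (𝓝[>] 0) (𝓝 0) := by
    intro s
    have := (hgs s).add ((hPgs s).neg)
    rw [add_neg_cancel] at this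
    refine this.congr' (Eventually.of_forall fun d => ?_)
    rw [hq, gsR_add708 h (fun x => - P x) hh hPc.neg, gsR_neg708]
  have haff := affine708 q hqc hq0
  have e : ∀ x, P x + (q 0 + (q 1 - q 0) * x) = h x := by
    intro x
    have := haff x
    simp only [hq] at this ⊢
    linarith
  refine ⟨fun s => P1 s + (q 1 - q 0), fun s => ?_, fun s => ?_⟩
  · have h1 : HasDerivAt (fun x : ℝ => q 0 + (q 1 - q 0) * x) (q 1 - q 0) s := by
      simpa using ((hasDerivAt_id s).const_mul (q 1 - q 0)).const_add (q 0)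
    exact ((hPd s).add h1).congr_of_eventuallyEq (Eventually.of_forall fun x => (e x).symm)
  · exact (hP1d s).add_const (q 1 - q 0)

theorem integral_re708 (H : ℝ → ℂ) (hH : Continuous H) (a b : ℝ) :
    (∫ t in a..b, H t).re = ∫ t in a..b, (H t).re := by
  have := Complex.reCLM.intervalIntegral_comp_comm (hH.intervalIntegrable (μ := volume) a b)
  simpa using this.symm

theorem integral_im708 (H : ℝ → ℂ) (hH : Continuous H) (a b : ℝ) :
    (∫ t in a..b, H t).im = ∫ t in a..b, (H t).im := by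
  have := Complex.imCLM.intervalIntegral_comp_comm (hH.intervalIntegrable (μ := volume) a b)
  simpa using this.symm

theorem gsC_re708 (H : ℝ → ℂ) (hH : Continuous H) (s d : ℝ) :
    ((((2 * d : ℝ) : ℂ)⁻¹ * (∫ t in (-d)..d, H (s + t)) - H s) / ((d ^ 2 : ℝ) : ℂ)).re
      = gsR (fun x => (H x).re) s d := by
  unfold gsR
  rw [Complex.div_ofReal_re, Complex.sub_re, ← Complex.ofReal_inv, Complex.re_ofReal_mul,
    integral_re708 _ (shift_cont708 H hH s)]

theorem gsC_im708 (H : ℝ → ℂ) (hH : Continuous H) (s d : ℝ) :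
    ((((2 * d : ℝ) : ℂ)⁻¹ * (∫ t in (-d)..d, H (s + t)) - H s) / ((d ^ 2 : ℝ) : ℂ)).im
      = gsR (fun x => (H x).im) s d := by
  unfold gsR
  rw [Complex.div_ofReal_im, Complex.sub_im, ← Complex.ofReal_inv, Complex.im_ofReal_mul,
    integral_im708 _ (shift_cont708 H hH s)]

/-- **Blaschke--Privalov in dimension one** (complex values), in the shape of the leaf
`H973.GenSecondC` with `H973.HasGenSecond` unfolded. -/
theorem genSecond_core708 (H φ : ℝ → ℂ) (hH : Continuous H) (hφ : Continuous φ)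
    (hgs : ∀ s : ℝ, Tendsto
      (fun d : ℝ =>
        (((2 * d : ℝ) : ℂ)⁻¹ * (∫ t in (-d)..d, H (s + t)) - H s) / ((d ^ 2 : ℝ) : ℂ))
      (nhdsWithin 0 (Set.Ioi 0)) (nhds (φ s / 6))) :
    ∃ H' : ℝ → ℂ, (∀ s : ℝ, HasDerivAt H (H' s) s) ∧ ∀ s : ℝ, HasDerivAt H' (φ s) s := by
  have e6r : ∀ s, (φ s / 6).re = (φ s).re / 6 := by
    intro s
    have : (6 : ℂ) = ((6 : ℝ) : ℂ) := by norm_num
    rw [this, Complex.div_ofReal_re]
  have e6i : ∀ s, (φ s / 6).im = (φ s).im / 6 := by
    intro s
    have : (6 : ℂ) = ((6 : ℝ) : ℂ) := by norm_num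
    rw [this, Complex.div_ofReal_im]
  have hre : ∀ s, Tendsto (gsR (fun x => (H x).re) s) (𝓝[>] 0) (𝓝 ((φ s).re / 6)) := by
    intro s
    have := (Complex.continuous_re.tendsto _).comp (hgs s)
    rw [e6r] at this
    exact this.congr' (Eventually.of_forall fun d => gsC_re708 H hH s d)
  have him : ∀ s, Tendsto (gsR (fun x => (H x).im) s) (𝓝[>] 0) (𝓝 ((φ s).im / 6)) := by
    intro s
    have := (Complex.continuous_im.tendsto _).comp (hgs s)
    rw [e6i] at this
    exact this.congr' (Eventually.of_forall fun d => gsC_im708 H hH s d)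
  obtain ⟨u', hu, hu'⟩ := genSecond_real708 _ _ (Complex.continuous_re.comp hH)
    (Complex.continuous_re.comp hφ) hre
  obtain ⟨v', hv, hv'⟩ := genSecond_real708 _ _ (Complex.continuous_im.comp hH)
    (Complex.continuous_im.comp hφ) him
  refine ⟨fun s => (u' s : ℂ) + (v' s : ℂ) * Complex.I, fun s => ?_, fun s => ?_⟩
  · have := (hu s).ofReal_comp.add ((hv s).ofReal_comp.mul_const Complex.I)
    exact this.congr_of_eventuallyEq
      (Eventually.of_forall fun x => (Complex.re_add_im (H x)).symm)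
  · have := (hu' s).ofReal_comp.add ((hv' s).ofReal_comp.mul_const Complex.I)
    exact this.congr_deriv (Complex.re_add_im (φ s))

end Fermat.Agent.LT.T2.H708

end
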