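import Fermat.Agent.LT.T2.H973.ArchSpec
import Fermat.Agent.LT.T2.H708.GenSecondCore

/-!
# Row LT, tower T2, leaf T2.10.08.10 `GenSecondC` (L4b), registry row 1208 (helper708)

`genSecondC708 : H973.GenSecondC`, VERBATIM against `LT/T2/H973/ArchSpec.lean`
(sha256 6e234a4a0ea7, origin/helper973@1d2e30d90).  The proof is the Mathlib-only core
`genSecond_core708` of `GenSecondCore.lean` (Blaschke--Privalov in dimension one).
-/

set_option autoImplicit false

namespace Fermat.Agent.LT.T2.H708

/-- **L4b.**  A continuous function with continuous generalised second derivative `φ` is twice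
differentiable with `H'' = φ`. -/
theorem genSecondC708 : Fermat.Agent.LT.T2.H973.GenSecondC :=
  fun H φ hH hφ h => genSecond_core708 H φ hH hφ h

end Fermat.Agent.LT.T2.H708
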